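import Mathlib.FieldTheory.IsAlgClosed.Classification
import Mathlib.RingTheory.AlgebraicIndependent.TranscendenceBasis
import Mathlib.RingTheory.AlgebraicIndependent.Transcendental
import Mathlib.GroupTheory.Index

/-!
# Automorphisms of algebraically closed fields over algebraically closed subfields

Let `K ⊆ C` be algebraically closed fields.  An element of `C` which is fixed by a subgroup of
finite index of `Aut(C/K)` lies in `K` (`mem_range_of_fixed_of_finiteIndex`).  The key step is
`exists_algEquiv_apply_eq_add`: for `x` transcendental over `K` and `a : K` there is a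
`K`-automorphism of `C` sending `x` to `x + a`.
-/

set_option autoImplicit false

noncomputable section

open MvPolynomial

namespace Fermat.Agent.S29.H942

section Shift

variable (K : Type*) [Field K] (ι : Type*) [DecidableEq ι]

/-- The `K`-algebra endomorphism `X i ↦ X i + a`, `X j ↦ X j` (`j ≠ i`) of `K[X_ι]`. -/
def shiftHom (i : ι) (a : K) : MvPolynomial ι K →ₐ[K] MvPolynomial ι K :=
  aeval fun j => if j = i then X j + C a else X j

@[simp] lemma shiftHom_X_self (i : ι) (a : K) : shiftHom K ι i a (X i) = X i + C a := by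
  simp [shiftHom]

lemma shiftHom_X_of_ne (i : ι) (a : K) {j : ι} (h : j ≠ i) : shiftHom K ι i a (X j) = X j := by
  simp [shiftHom, h]

lemma shiftHom_comp (i : ι) (a b : K) (hab : a + b = 0) :
    (shiftHom K ι i a).comp (shiftHom K ι i b) = AlgHom.id K _ := by
  apply MvPolynomial.algHom_ext
  intro j
  by_cases h : j = i
  · subst h
    simp only [AlgHom.comp_apply, shiftHom_X_self, map_add, AlgHom.id_apply]
    have : shiftHom K ι j a (C b) = C b := by
      simp [shiftHom]
    rw [this, add_assoc, ← C_add, hab, C_0, add_zero]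
  · simp only [AlgHom.comp_apply, shiftHom_X_of_ne K ι i _ h, AlgHom.id_apply]

/-- The `K`-algebra automorphism `X i ↦ X i + a` of `K[X_ι]`. -/
def shiftEquiv (i : ι) (a : K) : MvPolynomial ι K ≃ₐ[K] MvPolynomial ι K :=
  AlgEquiv.ofAlgHom (shiftHom K ι i a) (shiftHom K ι i (-a))
    (shiftHom_comp K ι i a (-a) (add_neg_cancel a))
    (shiftHom_comp K ι i (-a) a (neg_add_cancel a))

@[simp] lemma shiftEquiv_X_self (i : ι) (a : K) : shiftEquiv K ι i a (X i) = X i + C a :=
  shiftHom_X_self K ι i a

end Shift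

variable {K Ω : Type*} [Field K] [Field Ω] [Algebra K Ω] [IsAlgClosed Ω]

/-- For `x : C` transcendental over `K` and `a : K` there is a `K`-automorphism of the
algebraically closed field `Ω` sending `x` to `x + a`. -/
theorem exists_algEquiv_apply_eq_add {x : Ω} (hx : Transcendental K x) (a : K) :
    ∃ σ : Ω ≃ₐ[K] Ω, σ x = x + algebraMap K Ω a := by
  classical
  -- a transcendence basis containing `x`
  have hs : AlgebraicIndepOn K (id : Ω → Ω) ({x} : Set Ω) := by
    have : AlgebraicIndependent K (fun i : ({x} : Set Ω) => (i : Ω)) := by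
      rw [algebraicIndependent_singleton_iff ⟨x, rfl⟩]
      exact hx
    exact this
  obtain ⟨B, hxB, hB⟩ := exists_isTranscendenceBasis_superset hs
  have hxB' : x ∈ B := hxB rfl
  set v : B → Ω := fun b => (b : Ω) with hv
  have hcl : IsAlgClosure (Algebra.adjoin K (Set.range v)) Ω :=
    IsAlgClosed.isAlgClosure_of_transcendence_basis v hB
  set A₀ := Algebra.adjoin K (Set.range v) with hA₀
  -- the automorphism of `A₀`
  set e : A₀ ≃ₐ[K] A₀ :=
    (hB.1.aevalEquiv.symm.trans (shiftEquiv K B ⟨x, hxB'⟩ a)).trans hB.1.aevalEquiv with he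
  set σ₀ : Ω ≃+* Ω := IsAlgClosure.equivOfEquiv Ω Ω e.toRingEquiv with hσ₀
  have hσ₀A : ∀ s : A₀, σ₀ (algebraMap A₀ Ω s) = algebraMap A₀ Ω (e s) := fun s =>
    IsAlgClosure.equivOfEquiv_algebraMap Ω Ω e.toRingEquiv s
  have hσ₀K : ∀ k : K, σ₀ (algebraMap K Ω k) = algebraMap K Ω k := by
    intro k
    have h1 : algebraMap K Ω k = algebraMap A₀ Ω (algebraMap K A₀ k) := rfl
    rw [h1, hσ₀A, e.commutes]
  refine ⟨AlgEquiv.ofRingEquiv (f := σ₀) hσ₀K, ?_⟩
  show σ₀ x = x + algebraMap K Ω a
  have hx1 : x = algebraMap A₀ Ω (hB.1.aevalEquiv (X ⟨x, hxB'⟩)) := by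
    rw [AlgebraicIndependent.algebraMap_aevalEquiv, aeval_X]
  have hx2 : e (hB.1.aevalEquiv (X ⟨x, hxB'⟩)) = hB.1.aevalEquiv (X ⟨x, hxB'⟩ + C a) := by
    simp only [he, AlgEquiv.trans_apply, AlgEquiv.symm_apply_apply, shiftEquiv_X_self]
  conv_lhs => rw [hx1]
  rw [hσ₀A, hx2, AlgebraicIndependent.algebraMap_aevalEquiv, map_add, aeval_X, aeval_C]

/-- An element of `Ω` whose orbit under `Aut(Ω/K)` is finite is algebraic over `K`. -/
theorem isAlgebraic_of_fixed_of_finiteIndex [Infinite K] (H : Subgroup (Ω ≃ₐ[K] Ω))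
    [H.FiniteIndex] {x : Ω} (hx : ∀ σ ∈ H, σ x = x) : IsAlgebraic K x := by
  by_contra hnot
  have htr : Transcendental K x := hnot
  choose σ hσ using fun a : K => exists_algEquiv_apply_eq_add htr a
  -- the map `a ↦ σ a H` is injective
  have hinj : Function.Injective fun a : K => (QuotientGroup.mk (σ a) : (Ω ≃ₐ[K] Ω) ⧸ H) := by
    intro a b hab
    have h1 : (σ a)⁻¹ * σ b ∈ H := QuotientGroup.eq.1 hab
    have h2 := hx _ h1
    have h3 : σ b x = σ a x := by
      have := congrArg (σ a) h2
      simpa [AlgEquiv.mul_apply] using this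
    rw [hσ, hσ] at h3
    have h4 : algebraMap K Ω b = algebraMap K Ω a := add_left_cancel h3
    exact ((algebraMap K Ω).injective h4).symm
  have hfin : Finite ((Ω ≃ₐ[K] Ω) ⧸ H) := Subgroup.finite_quotient_of_finiteIndex
  have hfinK : Finite K := Finite.of_injective _ hinj
  exact not_finite K

/-- **Fixed field.** Let `K ⊆ Ω` be algebraically closed fields.  An element of `Ω` fixed by a
subgroup of finite index of `Aut(Ω/K)` lies in `K`. -/
theorem mem_range_of_fixed_of_finiteIndex [IsAlgClosed K] (H : Subgroup (Ω ≃ₐ[K] Ω))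
    [H.FiniteIndex] {x : Ω} (hx : ∀ σ ∈ H, σ x = x) : x ∈ (algebraMap K Ω).range := by
  have halg := isAlgebraic_of_fixed_of_finiteIndex H hx
  have hint : IsIntegral K x := halg.isIntegral
  have h : (minpoly K x).degree = 1 :=
    IsAlgClosed.degree_eq_one_of_irreducible K (minpoly.irreducible hint)
  have hq : (minpoly K x).leadingCoeff = 1 := minpoly.monic hint
  have h0 : Polynomial.aeval x (minpoly K x) = 0 := minpoly.aeval K x
  rw [Polynomial.eq_X_add_C_of_degree_eq_one h, hq, Polynomial.C_1, one_mul, Polynomial.aeval_add,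
    Polynomial.aeval_X, Polynomial.aeval_C, add_eq_zero_iff_eq_neg] at h0
  exact ⟨-(minpoly K x).coeff 0, by rw [map_neg]; exact h0.symm⟩

end Fermat.Agent.S29.H942
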