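import Fermat.Agent.S29.M4b.K3.Basic
import Fermat.Agent.S29.H282.DictC
import Fermat.Agent.S29.H942.KummerChar
import Fermat.Agent.S29.H942.SameChar

/-!
# S29 / M4b / K3 : the sub-piece `K3-FIN` (helper942)

`finStatement N p : K3.FinStatement N p` — for a twisted function `U` of a parabolic character, the
`Aut(ℂ/ℚ̄)`-orbit of the class of `f = qexp (U ^ p)` in `F_ℂˣ / (F_ℂˣ) ^ p` is finite.

Assembly of helper42's decomposition (`coord/S29-K3.md`):
* (F1) DICT-hard over `ℂ`          : landed `H282.dvd_ord_of_isTwisted_complex`;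
* (F2) transport along `σ`         : `dvd_ord_smul` (Prelude `SemilinearAut.ord_smul`);
* pole clearing                    : `K3.exists_div_goodQ`;
* (F4) DICT-easy + ROOT            : landed `H282.exists_pow_eq_of_forall_dvd_ord`;
* (F5) character of the root       : `H942.exists_kummerChar`;
* (F6) finitely many characters    : `finite_monoidHom_of_fg`, `fg_Gamma0`;
* (F7) same character ⟹ same class : `exists_pow_mul_eq_of_sameChar`;
* (F8) one representative per character.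
-/

set_option autoImplicit false

noncomputable section

open ModularCurve AlgebraicCurve CongruenceSubgroup UpperHalfPlane
open scoped MatrixGroups Manifold

namespace Fermat.Agent.S29.H942

open Fermat.Agent.S24 Fermat.Agent.S24.H648 Fermat.Agent.S24.H708 Fermat.Agent.S24.Deg457
open Fermat.Agent.S29 Fermat.Agent.S29.M4b

/-! ### (F6) finitely many characters -/

/-- A finitely generated group has finitely many homomorphisms to a finite group. -/
theorem finite_monoidHom_of_fg (G H : Type*) [Group G] [Group.FG G] [Group H] [Finite H] :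
    Finite (G →* H) := by
  obtain ⟨S, hS, hSfin⟩ := Group.fg_iff.mp (inferInstance : Group.FG G)
  haveI : Finite S := Set.finite_coe_iff.mpr hSfin
  refine Finite.of_injective (fun (χ : G →* H) (s : S) => χ (s : G)) ?_
  intro χ χ' h
  refine MonoidHom.eq_of_eqOn_dense hS fun s hs => ?_
  exact congrFun h ⟨s, hs⟩

/-- `Γ₀(N)` is finitely generated. -/
theorem fg_Gamma0 (N : ℕ) [NeZero N] : Group.FG (Gamma0 N) := by
  haveI : Group.FG SL(2, ℤ) :=
    Group.fg_iff.mpr ⟨{ModularGroup.S, ModularGroup.T}, _root_.SpecialLinearGroup.SL2Z_generators,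
      Set.toFinite _⟩
  infer_instance

/-! ### (F2) transport of divisibility along a semilinear automorphism -/

/-- If `m ∣ ord_w f` at every place, the same holds for `g • f`. -/
theorem dvd_ord_smul {K F : Type*} [Field K] [Field F] [Algebra K F] (g : SemilinearAut K F)
    (f : F) (m : ℤ) (h : ∀ w : Place K F, m ∣ w.ord f) (w : Place K F) : m ∣ w.ord (g • f) := by
  have h1 := SemilinearAut.ord_smul g (g⁻¹ • w) f
  rw [smul_inv_smul] at h1
  rw [h1]
  exact h _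

/-- An automorphism of `ℂ` as a `ℚ`-algebra automorphism. -/
def autQ (σ : ℂ ≃+* ℂ) : ℂ ≃ₐ[ℚ] ℂ :=
  AlgEquiv.ofRingEquiv (f := σ) (fun r => by simp)

theorem autQ_apply (σ : ℂ ≃+* ℂ) (z : ℂ) : autQ σ z = σ z := rfl

/-! ### (F7) same character ⟹ same class, for arbitrary characters -/

/-- If `V`, `V'` are holomorphic with good `p`-th powers and transform under `Γ₀(N)` by the same
`p`-torsion multiplier system `ζ`, then `qexp (V ^ p) = g ^ p * qexp (V' ^ p)` with `g ∈ F_ℂ`. -/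
theorem exists_pow_mul_eq_of_sameChar (N : ℕ) [NeZero N] {p : ℕ} (hp : p ≠ 0) {V V' : ℍ → ℂ}
    (hV : MDifferentiable 𝓘(ℂ) 𝓘(ℂ) V) (hV' : MDifferentiable 𝓘(ℂ) 𝓘(ℂ) V') (hV'0 : V' ≠ 0)
    (hVp : (fun τ => V τ ^ p) ∈ goodRing N) (hV'p : (fun τ => V' τ ^ p) ∈ goodRing N)
    (ζ : Gamma0 N → ℂ) (hζ : ∀ γ, ζ γ ^ p = 1)
    (h1 : ∀ (γ : Gamma0 N) (τ : ℍ), V ((γ : SL(2, ℤ)) • τ) = ζ γ * V τ)
    (h2 : ∀ (γ : Gamma0 N) (τ : ℍ), V' ((γ : SL(2, ℤ)) • τ) = ζ γ * V' τ) :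
    ∃ g : LaurentSeries ℂ, g ∈ H882.FC N ∧
      qexpFun 1 (fun τ => V τ ^ p) = g ^ p * qexpFun 1 (fun τ => V' τ ^ p) := by
  have hp1 : p - 1 + 1 = p := Nat.sub_add_cancel (Nat.one_le_iff_ne_zero.mpr hp)
  set W : ℍ → ℂ := fun τ => V τ * V' τ ^ (p - 1) with hWdef
  have hfun : W ^ p = (fun τ => V τ ^ p) * (fun τ => V' τ ^ p) ^ (p - 1) := by
    funext τ
    simp only [hWdef, Pi.mul_apply, Pi.pow_apply]
    rw [mul_pow, ← pow_mul, ← pow_mul, mul_comm (p - 1) p]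
  have hW : W ∈ goodRing N := by
    refine mem_goodRing_of_pow_mem N hp (hV.mul (hV'.pow (p - 1))) (fun γ hγ τ => ?_) ?_
    · show V (γ • τ) * V' (γ • τ) ^ (p - 1) = V τ * V' τ ^ (p - 1)
      have e1 := h1 ⟨γ, hγ⟩ τ
      have e2 := h2 ⟨γ, hγ⟩ τ
      simp only at e1 e2
      rw [e1, e2, mul_pow]
      have hz : ζ ⟨γ, hγ⟩ * ζ ⟨γ, hγ⟩ ^ (p - 1) = 1 := by
        rw [← pow_succ', hp1, hζ]
      calc ζ ⟨γ, hγ⟩ * V τ * (ζ ⟨γ, hγ⟩ ^ (p - 1) * V' τ ^ (p - 1))
          = (ζ ⟨γ, hγ⟩ * ζ ⟨γ, hγ⟩ ^ (p - 1)) * (V τ * V' τ ^ (p - 1)) := by ring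
        _ = V τ * V' τ ^ (p - 1) := by rw [hz, one_mul]
    · have : (fun τ => W τ ^ p) = W ^ p := rfl
      rw [this, hfun]
      exact (goodRing N).mul_mem hVp ((goodRing N).pow_mem hV'p _)
  have hWm := H882.isMerInf_of_mem_goodRing hW
  have hVm := H882.isMerInf_of_mem_goodRing hVp
  have hV'm := H882.isMerInf_of_mem_goodRing hV'p
  set w := qexpFun 1 W with hw
  set a := qexpFun 1 (fun τ => V τ ^ p) with ha
  set b := qexpFun 1 (fun τ => V' τ ^ p) with hb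
  have hwFC : w ∈ H882.FC N := H882.qexpFun_mem_FC hW
  have hbFC : b ∈ H882.FC N := H882.qexpFun_mem_FC hV'p
  have hb0 : b ≠ 0 := by
    intro h0
    have h3 := (qexpFun_eq_zero_iff hV'm).mp h0
    apply hV'0
    funext τ
    exact pow_eq_zero_iff hp |>.mp (congrFun h3 τ)
  have hwp : w ^ p = a * b ^ (p - 1) := by
    rw [hw, ← qexpFun_pow' hWm p, hfun, qexpFun_mul hVm (hV'm.pow (p - 1)),
      qexpFun_pow' hV'm (p - 1)]
  refine ⟨w * b⁻¹, mul_mem hwFC (inv_mem hbFC), ?_⟩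
  rw [mul_pow, hwp, inv_pow]
  have hbp : b ^ p = b ^ (p - 1) * b := by rw [← pow_succ, hp1]
  rw [hbp, mul_inv]
  field_simp

/-! ### The class of `σ f` -/

section Fin

variable (N : ℕ) [NeZero N] (p : ℕ) [NeZero p]

/-- `x : F_ℂ` has the Kummer character `χ`: after clearing poles by a `p`-th power, `x` is the
`q`-expansion of the `p`-th power of a holomorphic function of character `χ`. -/
def HasKummerChar (x : LaurentSeries ℂ) (χ : Gamma0 N →* rootsOfUnity p ℂ) : Prop :=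
  ∃ s ∈ H882.FC N, s ≠ 0 ∧ ∃ V : ℍ → ℂ, MDifferentiable 𝓘(ℂ) 𝓘(ℂ) V ∧ V ≠ 0 ∧
    (fun τ => V τ ^ p) ∈ goodRing N ∧
    (∀ (γ : Gamma0 N) (τ : ℍ), V ((γ : SL(2, ℤ)) • τ) = (((χ γ : rootsOfUnity p ℂ) : ℂˣ) : ℂ) * V τ) ∧
    qexpFun 1 (fun τ => V τ ^ p) = x * s ^ p

/-- (F7)+(F8) two elements with the same Kummer character differ by a `p`-th power. -/
theorem exists_eq_mul_pow_of_hasKummerChar {x x' : LaurentSeries ℂ}
    {χ : Gamma0 N →* rootsOfUnity p ℂ} (hx : HasKummerChar N p x χ)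
    (hx' : HasKummerChar N p x' χ) :
    ∃ u ∈ H882.FC N, u ≠ 0 ∧ x = x' * u ^ p := by
  have hp : p ≠ 0 := NeZero.ne p
  obtain ⟨s, hs, hs0, V, hV, hV0, hVp, hVχ, hq⟩ := hx
  obtain ⟨s', hs', hs'0, V', hV', hV'0, hV'p, hV'χ, hq'⟩ := hx'
  obtain ⟨g, hg, hgeq⟩ := exists_pow_mul_eq_of_sameChar N hp hV hV' hV'0 hVp hV'p
    (fun γ => (((χ γ : rootsOfUnity p ℂ) : ℂˣ) : ℂ))
    (fun γ => by
      have h := (χ γ).2
      rw [mem_rootsOfUnity] at h
      have h2 := congrArg (fun z : ℂˣ => (z : ℂ)) h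
      simpa using h2)
    hVχ hV'χ
  have hqne : qexpFun 1 (fun τ => V τ ^ p) ≠ 0 := by
    intro h0
    have h3 := (qexpFun_eq_zero_iff (H882.isMerInf_of_mem_goodRing hVp)).mp h0
    apply hV0
    funext τ
    exact pow_eq_zero_iff hp |>.mp (congrFun h3 τ)
  have hg0 : g ≠ 0 := by
    intro h0
    rw [h0, zero_pow hp, zero_mul] at hgeq
    exact hqne hgeq
  refine ⟨g * s' * s⁻¹, mul_mem (mul_mem hg hs') (inv_mem hs),
    mul_ne_zero (mul_ne_zero hg0 hs'0) (inv_ne_zero hs0), ?_⟩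
  rw [hq, hq'] at hgeq
  have hsp : s ^ p ≠ 0 := pow_ne_zero _ hs0
  rw [mul_pow, mul_pow, inv_pow]
  field_simp
  rw [hgeq]
  ring

/-- (F1)–(F5): every element of `F_ℂ`, nonzero, all of whose orders at the places of `F_ℂ/ℂ` are
divisible by `p`, has a Kummer character. -/
theorem exists_hasKummerChar {x : LaurentSeries ℂ} (hx : x ∈ H882.FC N) (hx0 : x ≠ 0)
    (hdvd : ∀ w : Place ℂ ↥(laurentBaseChange ℂ (modularFunctionFieldFull N)),
      (p : ℤ) ∣ w.ord ⟨x, hx⟩) :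
    ∃ χ : Gamma0 N →* rootsOfUnity p ℂ, HasKummerChar N p x χ := by
  have hp : p ≠ 0 := NeZero.ne p
  have hp1 : p - 1 + 1 = p := Nat.sub_add_cancel (Nat.one_le_iff_ne_zero.mpr hp)
  -- pole clearing
  obtain ⟨a, ha, b, hb, hb0, hab⟩ := K3.exists_div_goodQ (N := N) hx
  obtain ⟨A, hA, hqA⟩ := ha
  obtain ⟨B, hB, hqB⟩ := hb
  have ha0 : a ≠ 0 := by
    intro h0
    rw [h0, zero_div] at hab
    exact hx0 hab
  set G : ℍ → ℂ := A * B ^ (p - 1) with hGdef
  have hG : G ∈ goodRing N := (goodRing N).mul_mem hA ((goodRing N).pow_mem hB _)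
  have hqG : HasQExp 1 G (a * b ^ (p - 1)) := hqA.mul (hqB.pow _)
  have hxb : a * b ^ (p - 1) = x * b ^ p := by
    rw [hab]
    have hbp : b ^ p = b ^ (p - 1) * b := by rw [← pow_succ, hp1]
    rw [hbp]
    field_simp
  have hG0 : G ≠ 0 := by
    intro h0
    have := hqG.eq_zero_iff.mpr h0
    exact mul_ne_zero ha0 (pow_ne_zero _ hb0) this
  have hbFC : b ∈ H882.FC N := H882.mem_FC_of_mem_goodQ ⟨B, hB, hqB⟩
  have hqGeq : qexpFun 1 G = x * b ^ p := by rw [hqG.qexpFun_eq, hxb]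
  have hGFC : qexpFun 1 G ∈ laurentBaseChange ℂ (modularFunctionFieldFull N) :=
    H882.qexpFun_mem_FC hG
  -- divisibility for `qexp G`
  have hdvdG : ∀ w : Place ℂ ↥(laurentBaseChange ℂ (modularFunctionFieldFull N)),
      (p : ℤ) ∣ w.ord ⟨qexpFun 1 G, hGFC⟩ := by
    intro w
    have he : (⟨qexpFun 1 G, hGFC⟩ : ↥(laurentBaseChange ℂ (modularFunctionFieldFull N)))
        = ⟨x, hx⟩ * ⟨b, hbFC⟩ ^ (p : ℤ) := by
      apply Subtype.ext
      rw [zpow_natCast]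
      exact hqGeq
    have hx0' : (⟨x, hx⟩ : ↥(laurentBaseChange ℂ (modularFunctionFieldFull N))) ≠ 0 := by
      intro h0
      exact hx0 (congrArg Subtype.val h0)
    have hb0' : (⟨b, hbFC⟩ : ↥(laurentBaseChange ℂ (modularFunctionFieldFull N))) ≠ 0 := by
      intro h0
      exact hb0 (congrArg Subtype.val h0)
    rw [he, Place.ord_mul w hx0' (zpow_ne_zero _ hb0'), Place.ord_zpow]
    exact dvd_add (hdvd w) (dvd_mul_right _ _)
  -- ROOT
  obtain ⟨V, hV, hVG⟩ := H282.exists_pow_eq_of_forall_dvd_ord hG hG0 hGFC hp hdvdG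
  have hVfun : (fun τ => V τ ^ p) = G := funext hVG
  have hV0 : V ≠ 0 := by
    intro h0
    apply hG0
    rw [← hVfun, h0]
    funext τ
    simp [hp]
  -- character
  obtain ⟨κ, hκ, hκV⟩ := exists_kummerChar (Gamma0 N) hV hV0 hp (fun γ hγ z => by
    rw [hVG, hVG]
    exact hG.2.1 γ hγ z)
  refine ⟨MonoidHom.codRestrict κ (rootsOfUnity p ℂ) (fun γ => by
      rw [mem_rootsOfUnity]
      exact hκ γ), b, hbFC, hb0, V, hV, hV0, ?_, ?_, ?_⟩
  · rw [hVfun]
    exact hG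
  · intro γ τ
    exact hκV γ τ
  · rw [hVfun]
    exact hqGeq

/-- **Sub-piece `K3-FIN`** of helper42's K3 sub-skeleton. -/
theorem finStatement : K3.FinStatement N p := by
  letI : Algebra Kbar ℂ := K3.algKC
  intro c hc U hU
  classical
  set f := qexpFun 1 (fun τ => U τ ^ p) with hf
  have hfFC : f ∈ laurentBaseChange ℂ (modularFunctionFieldFull N) :=
    H882.qexpFun_mem_FC hU.pow_mem
  have hf0 : f ≠ 0 := qexpFun_pow_ne_zero_of_isTwisted N p hU
  have hF1 : ∀ w : Place ℂ ↥(laurentBaseChange ℂ (modularFunctionFieldFull N)),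
      (p : ℤ) ∣ w.ord ⟨f, hfFC⟩ :=
    fun w => H282.dvd_ord_of_isTwisted_complex hc hU hfFC w
  haveI := fg_Gamma0 N
  haveI : Finite (Gamma0 N →* rootsOfUnity p ℂ) := finite_monoidHom_of_fg _ _
  -- every `σ f` has a Kummer character
  have hex : ∀ σ : ℂ ≃ₐ[Kbar] ℂ,
      ∃ χ : Gamma0 N →* rootsOfUnity p ℂ, HasKummerChar N p (coeffMap (σ : ℂ →+* ℂ) f) χ := by
    intro σ
    set g := arithmeticGalois (modularFunctionFieldFull N) (autQ σ.toRingEquiv) with hg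
    have hcoe : ((g • (⟨f, hfFC⟩ : ↥(laurentBaseChange ℂ (modularFunctionFieldFull N))) :
        ↥(laurentBaseChange ℂ (modularFunctionFieldFull N))) : LaurentSeries ℂ)
        = coeffMap (σ : ℂ →+* ℂ) f := by
      rw [hg, coe_arithmeticGalois_smul]
      exact coeffMap_congr (RingHom.ext fun _ => rfl) _
    have hmem : coeffMap (σ : ℂ →+* ℂ) f ∈ laurentBaseChange ℂ (modularFunctionFieldFull N) := by
      rw [← hcoe]
      exact Subtype.property _
    have hne : coeffMap (σ : ℂ →+* ℂ) f ≠ 0 := by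
      intro h0
      apply hf0
      have hinj : Function.Injective (coeffMap (σ : ℂ →+* ℂ)) := RingHom.injective _
      exact hinj (by rw [h0, map_zero])
    refine exists_hasKummerChar N p hmem hne fun w => ?_
    have h2 := dvd_ord_smul g ⟨f, hfFC⟩ (p : ℤ) hF1 w
    have he : (⟨coeffMap (σ : ℂ →+* ℂ) f, hmem⟩ :
        ↥(laurentBaseChange ℂ (modularFunctionFieldFull N))) = g • ⟨f, hfFC⟩ :=
      Subtype.ext hcoe.symm
    rw [he]
    exact h2
  -- one representative per character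
  let t : (Gamma0 N →* rootsOfUnity p ℂ) → LaurentSeries ℂ := fun χ =>
    if h : ∃ σ : ℂ ≃ₐ[Kbar] ℂ, HasKummerChar N p (coeffMap (σ : ℂ →+* ℂ) f) χ then
      coeffMap ((h.choose : ℂ ≃ₐ[Kbar] ℂ) : ℂ →+* ℂ) f
    else 0
  refine ⟨Set.range t, Set.finite_range t, fun σ => ?_⟩
  obtain ⟨χ, hχ⟩ := hex σ
  have h : ∃ σ : ℂ ≃ₐ[Kbar] ℂ, HasKummerChar N p (coeffMap (σ : ℂ →+* ℂ) f) χ := ⟨σ, hχ⟩
  have ht : t χ = coeffMap ((h.choose : ℂ ≃ₐ[Kbar] ℂ) : ℂ →+* ℂ) f := dif_pos h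
  refine ⟨t χ, ⟨χ, rfl⟩, ?_⟩
  rw [ht]
  exact exists_eq_mul_pow_of_hasKummerChar N p hχ h.choose_spec

end Fin

end Fermat.Agent.S29.H942
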