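import Fermat.Agent.S29.M4b.K3.Main
import Fermat.Agent.S29.H942.K3Fin

/-!
# S29 / M4b : PIECE `K3` (descent `ℂ → ℚ̄`), closed (helper942)

* `pieceK3 N p hp : M4b.PieceK3 N p` for every level `N ≠ 0` and every modulus `p ≠ 0`
  (the `Prop` form of `M4b/Top.lean`);
* `pieceK3_prime` : the shape consumed by `M4b.M4bStatement_of_pieces`;
* `exists_realised_isTwisted` : the EXACT statement of piece `K3` of helper822's
  `M4b/Skeleton.lean`.

Proof: helper42's top assembly `K3.pieceK3_of_fin` (descent `H152.desc_main`, `K3-DEG`) applied to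
`H942.finStatement` (`K3-FIN`).
-/

set_option autoImplicit false

noncomputable section

open ModularCurve AlgebraicCurve CongruenceSubgroup UpperHalfPlane
open scoped MatrixGroups Manifold

namespace Fermat.Agent.S29.H942

open Fermat.Agent.S24 Fermat.Agent.S29 Fermat.Agent.S29.M4b

/-- **PIECE K3**, `Prop` form of `M4b/Top.lean`, any level and any modulus `p ≠ 0`. -/
theorem pieceK3 (N : ℕ) [NeZero N] (p : ℕ) (hp : p ≠ 0) : PieceK3 N p := by
  haveI : NeZero p := ⟨hp⟩
  intro c hc U hU
  exact K3.pieceK3_of_fin N p (finStatement N p) hc hU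

/-- **PIECE K3** in the shape consumed by `M4b.M4bStatement_of_pieces`. -/
theorem pieceK3_prime (N : ℕ) [NeZero N] (p : ℕ) (hp : p.Prime) : PieceK3 N p :=
  pieceK3 N p hp.ne_zero

/-- **PIECE K3**, exact statement of `exists_realised_isTwisted` in `M4b/Skeleton.lean`. -/
theorem exists_realised_isTwisted (N : ℕ) [NeZero N] (p : ℕ) [NeZero p]
    {c : G0 N → ZMod p} (hc : IsParHom c) {U : ℍ → ℂ} (hU : IsTwisted N p c U) :
    ∃ (U' : ℍ → ℂ) (u : FF N), IsTwisted N p c U' ∧ Realises N u (fun τ => U' τ ^ p) :=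
  pieceK3 N p (NeZero.ne p) hc hU

end Fermat.Agent.S29.H942
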