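import Fermat.Agent.S29.H942.TwEisLimit

/-!
# Twisted Eisenstein series (piece E1 of row S29)

For a subgroup `Γ ≤ SL(2,ℤ)` and a unitary character `χ : Γ →* ℂˣ` which is trivial on the
elements of `Γ` with lower left entry `0`, and an even weight `k ≥ 4`, the twisted Eisenstein
series
`twEis Γ χ k z = ∑_{(c,d) bottom row of Γ} χ(γ_{c,d})⁻¹ (cz+d)^(-k)`
is holomorphic on `ℍ`, satisfies `E ∣[k] γ = χ γ • E` for `γ ∈ Γ`, all its `SL(2,ℤ)`-translates are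
bounded at `i∞`, and it is not identically zero.
-/

set_option autoImplicit false

noncomputable section

open UpperHalfPlane EisensteinSeries Matrix ModularForm Filter Topology Set
open scoped MatrixGroups Manifold

namespace Fermat.Agent.S29.H942

/-- The bottom row of a matrix in `SL(2,ℤ)`. -/
def botRow (γ : SL(2, ℤ)) : Fin 2 → ℤ := (γ : Matrix (Fin 2) (Fin 2) ℤ) 1

lemma botRow_apply (γ : SL(2, ℤ)) (i : Fin 2) : botRow γ i = γ 1 i := rfl

lemma botRow_mul (γ δ : SL(2, ℤ)) : botRow (γ * δ) = botRow γ ᵥ* δ := by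
  ext i
  simp only [botRow, Matrix.SpecialLinearGroup.coe_mul, Matrix.mul_apply, vecMul, dotProduct]

lemma botRow_one : botRow 1 = ![0, 1] := by
  ext i
  fin_cases i <;> simp [botRow]

lemma botRow_mul_inv_of_eq {γ γ' : SL(2, ℤ)} (h : botRow γ = botRow γ') :
    botRow (γ' * γ⁻¹) = ![0, 1] := by
  rw [botRow_mul, ← h, ← botRow_mul, mul_inv_cancel, botRow_one]

/-- A bottom row with first entry `0` has second entry `±1`. -/
lemma botRow_one_of_zero {γ : SL(2, ℤ)} (h : botRow γ 0 = 0) :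
    botRow γ 1 = 1 ∨ botRow γ 1 = -1 := by
  have hdet := Matrix.SpecialLinearGroup.det_coe γ
  rw [Matrix.det_fin_two] at hdet
  have h0 : γ 1 0 = 0 := h
  rw [h0, mul_zero, sub_zero] at hdet
  have : IsUnit (γ 1 1) := IsUnit.of_mul_eq_one _ (by rw [mul_comm]; exact hdet)
  rcases Int.isUnit_iff.mp this with h1 | h1
  · exact Or.inl h1
  · exact Or.inr h1

variable (Γ : Subgroup SL(2, ℤ)) (χ : Γ →* ℂˣ)

open Classical in
/-- The weight function of the twisted Eisenstein series: `χ(γ)⁻¹` on the bottom row of `γ ∈ Γ`,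
`0` on vectors which are not bottom rows of elements of `Γ`. -/
def twWeight : (Fin 2 → ℤ) → ℂ := fun v =>
  if h : ∃ γ : Γ, botRow (γ : SL(2, ℤ)) = v then (((χ h.choose)⁻¹ : ℂˣ) : ℂ) else 0

variable {Γ χ}

lemma twWeight_of_not_exists {v : Fin 2 → ℤ} (h : ¬ ∃ γ : Γ, botRow (γ : SL(2, ℤ)) = v) :
    twWeight Γ χ v = 0 := by
  simp [twWeight, h]

/-- `χ` only depends on the bottom row. -/
lemma chi_eq_of_botRow_eq (hχ0 : ∀ γ : Γ, (γ : SL(2, ℤ)) 1 0 = 0 → χ γ = 1) {γ γ' : Γ}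
    (h : botRow (γ : SL(2, ℤ)) = botRow (γ' : SL(2, ℤ))) : χ γ = χ γ' := by
  have h1 : botRow ((γ' * γ⁻¹ : Γ) : SL(2, ℤ)) = ![0, 1] := by
    simpa using botRow_mul_inv_of_eq h
  have h2 : χ (γ' * γ⁻¹) = 1 := by
    apply hχ0
    have := congrFun h1 0
    simpa [botRow_apply] using this
  rw [map_mul, map_inv, mul_inv_eq_one] at h2
  exact h2.symm

lemma twWeight_botRow (hχ0 : ∀ γ : Γ, (γ : SL(2, ℤ)) 1 0 = 0 → χ γ = 1) (γ : Γ) :
    twWeight Γ χ (botRow (γ : SL(2, ℤ))) = (((χ γ)⁻¹ : ℂˣ) : ℂ) := by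
  have h : ∃ γ' : Γ, botRow (γ' : SL(2, ℤ)) = botRow (γ : SL(2, ℤ)) := ⟨γ, rfl⟩
  simp only [twWeight, dif_pos h]
  rw [chi_eq_of_botRow_eq hχ0 h.choose_spec]

lemma norm_twWeight_le (hχ : ∀ γ : Γ, ‖((χ γ : ℂˣ) : ℂ)‖ = 1) (v : Fin 2 → ℤ) :
    ‖twWeight Γ χ v‖ ≤ 1 := by
  classical
  by_cases h : ∃ γ : Γ, botRow (γ : SL(2, ℤ)) = v
  · simp only [twWeight, dif_pos h]
    rw [Units.val_inv_eq_inv_val, norm_inv, hχ, inv_one]
  · rw [twWeight_of_not_exists h, norm_zero]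
    exact zero_le_one

/-- Transformation behaviour of the weight function. -/
lemma twWeight_vecMul_inv (hχ0 : ∀ γ : Γ, (γ : SL(2, ℤ)) 1 0 = 0 → χ γ = 1) (δ : Γ)
    (v : Fin 2 → ℤ) :
    twWeight Γ χ (v ᵥ* ↑((δ : SL(2, ℤ))⁻¹)) = ((χ δ : ℂˣ) : ℂ) * twWeight Γ χ v := by
  by_cases h : ∃ γ : Γ, botRow (γ : SL(2, ℤ)) = v
  · obtain ⟨γ, rfl⟩ := h
    have h1 : botRow (γ : SL(2, ℤ)) ᵥ* ↑((δ : SL(2, ℤ))⁻¹) =
        botRow ((γ * δ⁻¹ : Γ) : SL(2, ℤ)) := by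
      rw [Subgroup.coe_mul, Subgroup.coe_inv, botRow_mul]
    rw [h1, twWeight_botRow hχ0, twWeight_botRow hχ0, map_mul, map_inv]
    simp
  · have h' : ¬ ∃ γ : Γ, botRow (γ : SL(2, ℤ)) = v ᵥ* ↑((δ : SL(2, ℤ))⁻¹) := by
      rintro ⟨γ, hγ⟩
      refine h ⟨γ * δ, ?_⟩
      rw [Subgroup.coe_mul, botRow_mul, hγ, vecMul_inv_vecMul]
    rw [twWeight_of_not_exists h, twWeight_of_not_exists h', mul_zero]

variable (Γ χ)

/-- The twisted Eisenstein series of weight `k` for the character `χ` of `Γ`. -/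
def twEis (k : ℤ) : ℍ → ℂ := wEis (twWeight Γ χ) k

variable {Γ χ}

/-- Twisted Eisenstein series are holomorphic. -/
theorem twEis_mdifferentiable (hχ : ∀ γ : Γ, ‖((χ γ : ℂˣ) : ℂ)‖ = 1) {k : ℤ} (hk : 3 ≤ k) :
    MDiff (twEis Γ χ k) :=
  wEis_mdifferentiable (norm_twWeight_le hχ) hk

/-- All `SL(2,ℤ)`-translates of a twisted Eisenstein series are bounded at `i∞`. -/
theorem twEis_slash_isBoundedAtImInfty (hχ : ∀ γ : Γ, ‖((χ γ : ℂˣ) : ℂ)‖ = 1) {k : ℤ}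
    (hk : 3 ≤ k) (g : SL(2, ℤ)) : IsBoundedAtImInfty ((twEis Γ χ k) ∣[k] g) :=
  wEis_slash_isBoundedAtImInfty (norm_twWeight_le hχ) hk g

lemma wEis_const_mul (c : ℂ) (w : (Fin 2 → ℤ) → ℂ) (k : ℤ) :
    wEis (fun v => c * w v) k = c • wEis w k := by
  ext z
  simp only [wEis, Pi.smul_apply, smul_eq_mul, mul_assoc, tsum_mul_left]

/-- The transformation law of the twisted Eisenstein series: `E ∣[k] δ = χ δ • E`. -/
theorem twEis_slash (hχ0 : ∀ γ : Γ, (γ : SL(2, ℤ)) 1 0 = 0 → χ γ = 1) (k : ℤ) (δ : Γ) :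
    (twEis Γ χ k) ∣[k] (δ : SL(2, ℤ)) = ((χ δ : ℂˣ) : ℂ) • twEis Γ χ k := by
  rw [twEis, wEis_slash, ← wEis_const_mul]
  congr 1
  funext v
  exact twWeight_vecMul_inv hχ0 δ v

/-- The transformation law in terms of values. -/
theorem twEis_smul_apply (hχ0 : ∀ γ : Γ, (γ : SL(2, ℤ)) 1 0 = 0 → χ γ = 1) (k : ℤ) (δ : Γ)
    (z : ℍ) :
    twEis Γ χ k ((δ : SL(2, ℤ)) • z) =
      ((χ δ : ℂˣ) : ℂ) * denom (δ : SL(2, ℤ)) z ^ k * twEis Γ χ k z := by
  have h := congrFun (twEis_slash hχ0 k δ) z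
  rw [SL_slash_apply, Pi.smul_apply, smul_eq_mul, zpow_neg,
    mul_inv_eq_iff_eq_mul₀ (zpow_ne_zero _ <| denom_ne_zero _ z)] at h
  rw [h]
  ring

/-- The value of the limit along the imaginary axis. -/
lemma twEis_limit_eq (hχ0 : ∀ γ : Γ, (γ : SL(2, ℤ)) 1 0 = 0 → χ γ = 1) {k : ℕ}
    (hk : Even k) :
    (∑' v : Fin 2 → ℤ,
      if v 0 = 0 then twWeight Γ χ v * ((v 1 : ℤ) : ℂ) ^ (-(k : ℤ)) else 0) =
      1 + twWeight Γ χ ![0, -1] := by
  classical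
  have hne : (![0, 1] : Fin 2 → ℤ) ≠ ![0, -1] := by
    intro h
    have := congrFun h 1
    simp at this
  rw [tsum_eq_sum (s := {![0, 1], ![0, -1]})]
  · rw [Finset.sum_pair hne]
    have h1 : twWeight Γ χ ![0, 1] = 1 := by
      have := twWeight_botRow hχ0 (1 : Γ)
      rw [Subgroup.coe_one, botRow_one, map_one] at this
      simpa using this
    have h2 : ((-1 : ℂ)) ^ (-(k : ℤ)) = 1 := by
      rw [zpow_neg, zpow_natCast, hk.neg_one_pow, inv_one]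
    simp [h1, h2]
  · intro v hv
    by_cases hv0 : v 0 = 0
    · simp only [hv0, if_true]
      have : twWeight Γ χ v = 0 := by
        apply twWeight_of_not_exists
        rintro ⟨γ, rfl⟩
        apply hv
        have h01 := botRow_one_of_zero hv0
        simp only [Finset.mem_insert, Finset.mem_singleton]
        rcases h01 with h1 | h1
        · left
          ext i
          fin_cases i
          · simpa using hv0
          · simpa using h1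
        · right
          ext i
          fin_cases i
          · simpa using hv0
          · simpa using h1
      rw [this, zero_mul]
    · simp [hv0]

lemma twWeight_zero_neg_one (hχ0 : ∀ γ : Γ, (γ : SL(2, ℤ)) 1 0 = 0 → χ γ = 1) :
    twWeight Γ χ ![0, -1] = 0 ∨ twWeight Γ χ ![0, -1] = 1 := by
  by_cases h : ∃ γ : Γ, botRow (γ : SL(2, ℤ)) = ![0, -1]
  · right
    obtain ⟨γ, hγ⟩ := h
    rw [← hγ, twWeight_botRow hχ0]
    have : χ γ = 1 := by
      apply hχ0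
      have := congrFun hγ 0
      simpa [botRow_apply] using this
    simp [this]
  · left
    exact twWeight_of_not_exists h

/-- Twisted Eisenstein series of even weight `k ≥ 4` do not vanish identically. -/
theorem twEis_ne_zero (hχ : ∀ γ : Γ, ‖((χ γ : ℂˣ) : ℂ)‖ = 1)
    (hχ0 : ∀ γ : Γ, (γ : SL(2, ℤ)) 1 0 = 0 → χ γ = 1) {k : ℕ} (hk : 3 ≤ k) (hk2 : Even k) :
    twEis Γ χ (k : ℤ) ≠ 0 := by
  refine wEis_ne_zero_of_limit_ne_zero (norm_twWeight_le hχ) hk ?_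
  rw [twEis_limit_eq hχ0 hk2]
  rcases twWeight_zero_neg_one (Γ := Γ) (χ := χ) hχ0 with h | h
  · rw [h]; norm_num
  · rw [h]; norm_num

/-- **Twisted Eisenstein series**: existence statement. -/
theorem exists_twisted_eisenstein (Γ : Subgroup SL(2, ℤ)) (χ : Γ →* ℂˣ)
    (hχ : ∀ γ : Γ, ‖((χ γ : ℂˣ) : ℂ)‖ = 1)
    (hχ0 : ∀ γ : Γ, (γ : SL(2, ℤ)) 1 0 = 0 → χ γ = 1) {k : ℕ} (hk : 3 ≤ k) (hk2 : Even k) :
    ∃ E : ℍ → ℂ, MDiff E ∧
      (∀ δ : Γ, E ∣[(k : ℤ)] (δ : SL(2, ℤ)) = ((χ δ : ℂˣ) : ℂ) • E) ∧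
      (∀ (δ : Γ) (z : ℍ), E ((δ : SL(2, ℤ)) • z) =
        ((χ δ : ℂˣ) : ℂ) * denom (δ : SL(2, ℤ)) z ^ (k : ℤ) * E z) ∧
      (∀ g : SL(2, ℤ), IsBoundedAtImInfty (E ∣[(k : ℤ)] g)) ∧
      E ≠ 0 :=
  ⟨twEis Γ χ k, twEis_mdifferentiable hχ (by exact_mod_cast hk),
    twEis_slash hχ0 k, twEis_smul_apply hχ0 k,
    twEis_slash_isBoundedAtImInfty hχ (by exact_mod_cast hk), twEis_ne_zero hχ hχ0 hk hk2⟩

end Fermat.Agent.S29.H942
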