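import Mathlib.NumberTheory.ModularForms.EisensteinSeries.Basic

/-!
# Weighted Eisenstein series (analytic core of the twisted Eisenstein series, piece E1 of row S29)

For a bounded weight `w : (Fin 2 → ℤ) → ℂ` and `3 ≤ k` the series
`wEis w k z = ∑' v, w v * (v 0 * z + v 1) ^ (-k)` converges absolutely and locally uniformly,
is holomorphic on `ℍ`, is bounded at `i∞`, and its slash translates are again weighted
Eisenstein series.
-/

set_option autoImplicit false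

noncomputable section

open UpperHalfPlane EisensteinSeries Matrix ModularForm Filter Topology Set
open scoped MatrixGroups Manifold

namespace Fermat.Agent.S29.H942

/-- Weighted Eisenstein series: `∑ w(c,d) (cz+d)^(-k)`. -/
def wEis (w : (Fin 2 → ℤ) → ℂ) (k : ℤ) (z : ℍ) : ℂ :=
  ∑' v : Fin 2 → ℤ, w v * eisSummand k v z

lemma wEis_def (w : (Fin 2 → ℤ) → ℂ) (k : ℤ) (z : ℍ) :
    wEis w k z = ∑' v : Fin 2 → ℤ, w v * eisSummand k v z := rfl

/-- termwise bound -/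
lemma norm_wEis_term_le {w : (Fin 2 → ℤ) → ℂ} {C : ℝ} (hw : ∀ v, ‖w v‖ ≤ C) (k : ℤ)
    (v : Fin 2 → ℤ) (z : ℍ) :
    ‖w v * eisSummand k v z‖ ≤ C * ‖eisSummand k v z‖ := by
  rw [norm_mul]
  exact mul_le_mul_of_nonneg_right (hw v) (norm_nonneg _)

lemma summable_norm_wEis_term {w : (Fin 2 → ℤ) → ℂ} {C : ℝ} (hw : ∀ v, ‖w v‖ ≤ C) {k : ℤ}
    (hk : 3 ≤ k) (z : ℍ) :
    Summable fun v : Fin 2 → ℤ => ‖w v * eisSummand k v z‖ :=
  ((summable_norm_eisSummand hk z).mul_left C).of_nonneg_of_le (fun _ => norm_nonneg _)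
    (fun v => norm_wEis_term_le hw k v z)

lemma summable_wEis_term {w : (Fin 2 → ℤ) → ℂ} {C : ℝ} (hw : ∀ v, ‖w v‖ ≤ C) {k : ℤ}
    (hk : 3 ≤ k) (z : ℍ) :
    Summable fun v : Fin 2 → ℤ => w v * eisSummand k v z :=
  (summable_norm_wEis_term hw hk z).of_norm

/-- The equivalence of `Fin 2 → ℤ` given by right multiplication with `γ ∈ SL(2,ℤ)`. -/
def vecMulEquiv (γ : SL(2, ℤ)) : (Fin 2 → ℤ) ≃ (Fin 2 → ℤ) where
  toFun v := v ᵥ* γ
  invFun v := v ᵥ* ↑(γ⁻¹)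
  left_inv v := by
    simp_rw [vecMul_vecMul, ← Matrix.SpecialLinearGroup.coe_mul, mul_inv_cancel,
      Matrix.SpecialLinearGroup.coe_one, vecMul_one]
  right_inv v := by
    simp_rw [vecMul_vecMul, ← Matrix.SpecialLinearGroup.coe_mul, inv_mul_cancel,
      Matrix.SpecialLinearGroup.coe_one, vecMul_one]

@[simp] lemma vecMulEquiv_apply (γ : SL(2, ℤ)) (v : Fin 2 → ℤ) :
    vecMulEquiv γ v = v ᵥ* γ := rfl

@[simp] lemma vecMulEquiv_symm_apply (γ : SL(2, ℤ)) (v : Fin 2 → ℤ) :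
    (vecMulEquiv γ).symm v = v ᵥ* ↑(γ⁻¹) := rfl

lemma vecMul_vecMul_inv (γ : SL(2, ℤ)) (v : Fin 2 → ℤ) :
    (v ᵥ* (γ : Matrix (Fin 2) (Fin 2) ℤ)) ᵥ* (↑(γ⁻¹) : Matrix (Fin 2) (Fin 2) ℤ) = v :=
  (vecMulEquiv γ).left_inv v

lemma vecMul_inv_vecMul (γ : SL(2, ℤ)) (v : Fin 2 → ℤ) :
    (v ᵥ* (↑(γ⁻¹) : Matrix (Fin 2) (Fin 2) ℤ)) ᵥ* (γ : Matrix (Fin 2) (Fin 2) ℤ) = v :=
  (vecMulEquiv γ).right_inv v

/-- Slash translates of weighted Eisenstein series are weighted Eisenstein series. -/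
lemma wEis_slash (w : (Fin 2 → ℤ) → ℂ) (k : ℤ) (γ : SL(2, ℤ)) :
    (wEis w k) ∣[k] γ = wEis (fun v => w (v ᵥ* ↑(γ⁻¹))) k := by
  ext1 z
  simp_rw [SL_slash_apply, zpow_neg,
    mul_inv_eq_iff_eq_mul₀ (zpow_ne_zero _ <| denom_ne_zero _ z),
    wEis, eisSummand_SL2_apply, ← tsum_mul_right]
  have h := (vecMulEquiv γ).tsum_eq
    (fun u => w (u ᵥ* ↑(γ⁻¹)) * eisSummand k u z * denom (γ : SL(2, ℤ)) z ^ k)
  rw [← h]
  refine tsum_congr fun v => ?_
  simp only [vecMulEquiv_apply, vecMul_vecMul_inv]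
  ring

/-- The weighted Eisenstein series converges locally uniformly on `ℍ`. -/
theorem wEis_tendstoLocallyUniformly {w : (Fin 2 → ℤ) → ℂ} {C : ℝ} (hw : ∀ v, ‖w v‖ ≤ C)
    {k : ℤ} (hk : 3 ≤ k) :
    TendstoLocallyUniformly
      (fun (s : Finset (Fin 2 → ℤ)) ↦ (∑ v ∈ s, w v * eisSummand k v ·))
      (wEis w k ·) Filter.atTop := by
  have hk' : (2 : ℝ) < k := by norm_cast
  have hC : 0 ≤ C := (norm_nonneg _).trans (hw 0)
  have p_sum : Summable fun x : Fin 2 → ℤ ↦ ‖x‖ ^ (-k) :=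
    mod_cast (summable_one_div_norm_rpow hk')
  simp only [tendstoLocallyUniformly_iff_forall_isCompact, wEis]
  intro K hK
  obtain ⟨A, B, hB, HABK⟩ := subset_verticalStrip_of_isCompact hK
  refine (tendstoUniformlyOn_tsum
    (hu := (p_sum.mul_left <| r ⟨⟨A, B⟩, hB⟩ ^ (-k : ℝ)).mul_left C)
    (fun p z hz ↦ ?_)).mono HABK
  refine (norm_wEis_term_le hw k p z).trans (mul_le_mul_of_nonneg_left ?_ hC)
  simpa only [eisSummand, one_div, ← zpow_neg, norm_zpow, ← Real.rpow_intCast,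
    Int.cast_neg] using summand_bound_of_mem_verticalStrip (by positivity) p hB hz

lemma wEis_tendstoLocallyUniformlyOn {w : (Fin 2 → ℤ) → ℂ} {C : ℝ} (hw : ∀ v, ‖w v‖ ≤ C)
    {k : ℤ} (hk : 3 ≤ k) :
    TendstoLocallyUniformlyOn
      (fun (s : Finset (Fin 2 → ℤ)) ↦ ↑ₕ(fun (z : ℍ) ↦ ∑ v ∈ s, w v * eisSummand k v z))
      (↑ₕ(wEis w k)) Filter.atTop {z : ℂ | 0 < z.im} := by
  rw [← upperHalfPlaneSet, ← range_coe, ← image_univ]
  apply TendstoLocallyUniformlyOn.comp (s := ⊤) _ _ _ (OpenPartialHomeomorph.continuousOn_symm _)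
  · simp only [Set.top_eq_univ, tendstoLocallyUniformlyOn_univ]
    apply wEis_tendstoLocallyUniformly hw hk
  · simp only [IsOpenEmbedding.toOpenPartialHomeomorph_target, Set.top_eq_univ, mapsTo_range_iff,
    Set.mem_univ, forall_const]

lemma wEis_term_extension_differentiableOn (w : (Fin 2 → ℤ) → ℂ) (k : ℤ) (a : Fin 2 → ℤ) :
    DifferentiableOn ℂ (↑ₕ(fun z : ℍ => w a * eisSummand k a z)) {z : ℂ | 0 < z.im} := by
  have h := (eisSummand_extension_differentiableOn k a).const_smul (w a)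
  refine h.congr fun z hz => ?_
  simp [smul_eq_mul]

/-- Weighted Eisenstein series are holomorphic. -/
theorem wEis_mdifferentiable {w : (Fin 2 → ℤ) → ℂ} {C : ℝ} (hw : ∀ v, ‖w v‖ ≤ C)
    {k : ℤ} (hk : 3 ≤ k) : MDiff (wEis w k) := by
  intro τ
  suffices DifferentiableAt ℂ (↑ₕ(wEis w k)) τ.1 by
    convert
      MDifferentiableAt.comp τ (DifferentiableAt.mdifferentiableAt this) τ.mdifferentiable_coe
    exact funext fun z ↦ (comp_ofComplex (wEis w k) z).symm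
  refine DifferentiableOn.differentiableAt ?_ (isOpen_upperHalfPlaneSet.mem_nhds τ.2)
  refine (wEis_tendstoLocallyUniformlyOn hw hk).differentiableOn
    (Eventually.of_forall fun s ↦ ?_) isOpen_upperHalfPlaneSet
  have : (↑ₕ(fun (z : ℍ) ↦ ∑ v ∈ s, w v * eisSummand k v z)) =
      fun z : ℂ => ∑ v ∈ s, (↑ₕ(fun z : ℍ => w v * eisSummand k v z)) z := by
    funext z
    simp
  rw [this]
  exact DifferentiableOn.fun_sum fun v _ ↦ wEis_term_extension_differentiableOn w k v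

/-- The sum of the norms of all Eisenstein summands is invariant under `z ↦ γ z` for `γ` of
denominator `1`, in particular under translations. -/
lemma tsum_norm_eisSummand_T_zpow (k : ℤ) (n : ℤ) (z : ℍ) :
    ∑' v : Fin 2 → ℤ, ‖eisSummand k v (ModularGroup.T ^ n • z)‖ =
      ∑' v : Fin 2 → ℤ, ‖eisSummand k v z‖ := by
  have h1 : ∀ v : Fin 2 → ℤ, ‖eisSummand k v (ModularGroup.T ^ n • z)‖ =
      ‖eisSummand k (vecMulEquiv (ModularGroup.T ^ n) v) z‖ := by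
    intro v
    rw [vecMulEquiv_apply, modular_T_zpow_smul]
    simp only [eisSummand, UpperHalfPlane.coe_vadd, ModularGroup.coe_T_zpow,
      vecMul, vec2_dotProduct, Matrix.of_apply, Matrix.cons_val', Matrix.cons_val_zero,
      Matrix.cons_val_one, Matrix.cons_val_fin_one]
    congr 2
    push_cast
    ring
  simp_rw [h1]
  exact (vecMulEquiv (ModularGroup.T ^ n)).tsum_eq (fun u => ‖eisSummand k u z‖)

/-- Weighted Eisenstein series are bounded at `i∞`. -/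
theorem wEis_isBoundedAtImInfty {w : (Fin 2 → ℤ) → ℂ} {C : ℝ} (hw : ∀ v, ‖w v‖ ≤ C)
    {k : ℤ} (hk : 3 ≤ k) : IsBoundedAtImInfty (wEis w k) := by
  have hC : 0 ≤ C := (norm_nonneg _).trans (hw 0)
  have hk' : (2 : ℝ) < k := by norm_cast
  rw [UpperHalfPlane.isBoundedAtImInfty_iff]
  refine ⟨C * ∑' (x : Fin 2 → ℤ), r ⟨⟨1, 2⟩, Nat.ofNat_pos⟩ ^ (-k) * ‖x‖ ^ (-k), 2, ?_⟩
  intro z hz
  obtain ⟨n, hn⟩ := (ModularGroup_T_zpow_mem_verticalStrip z (N := 1) one_pos)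
  have h1 : ‖wEis w k z‖ ≤ C * ∑' v : Fin 2 → ℤ, ‖eisSummand k v z‖ := by
    rw [wEis, ← tsum_mul_left]
    refine (norm_tsum_le_tsum_norm (summable_norm_wEis_term hw hk z)).trans ?_
    exact (summable_norm_wEis_term hw hk z).tsum_le_tsum (fun v => norm_wEis_term_le hw k v z)
      ((summable_norm_eisSummand hk z).mul_left C)
  refine h1.trans (mul_le_mul_of_nonneg_left ?_ hC)
  rw [← tsum_norm_eisSummand_T_zpow k ((1 : ℕ) * n) z]
  apply (summable_norm_eisSummand hk _).tsum_le_tsum _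
  · exact_mod_cast (summable_one_div_norm_rpow hk').mul_left <| r ⟨⟨1, 2⟩, Nat.ofNat_pos⟩ ^ (-k)
  · intro x
    simp_rw [eisSummand, norm_zpow]
    exact_mod_cast
      summand_bound_of_mem_verticalStrip (lt_trans two_pos hk').le x two_pos
      (verticalStrip_anti_right 1 hz (by exact_mod_cast hn))

/-- All slash translates of a weighted Eisenstein series are bounded at `i∞`. -/
theorem wEis_slash_isBoundedAtImInfty {w : (Fin 2 → ℤ) → ℂ} {C : ℝ} (hw : ∀ v, ‖w v‖ ≤ C)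
    {k : ℤ} (hk : 3 ≤ k) (γ : SL(2, ℤ)) : IsBoundedAtImInfty ((wEis w k) ∣[k] γ) := by
  rw [wEis_slash]
  exact wEis_isBoundedAtImInfty (fun v => hw _) hk

end Fermat.Agent.S29.H942
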