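import Mathlib.Analysis.Normed.Group.Tannery
import Fermat.Agent.S29.H942.TwEisCore

/-!
# Limit of weighted Eisenstein series along the imaginary axis
-/

set_option autoImplicit false

noncomputable section

open UpperHalfPlane EisensteinSeries Matrix ModularForm Filter Topology Set
open scoped MatrixGroups Manifold

namespace Fermat.Agent.S29.H942

/-- The point `i (n + 1)` of the upper half plane. -/
def imAxisPt (n : ℕ) : ℍ := ⟨⟨0, (n : ℝ) + 1⟩, by positivity⟩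

@[simp] lemma imAxisPt_im (n : ℕ) : (imAxisPt n).im = (n : ℝ) + 1 := rfl

@[simp] lemma imAxisPt_re (n : ℕ) : (imAxisPt n).re = 0 := rfl

lemma imAxisPt_mem_verticalStrip (n : ℕ) : imAxisPt n ∈ verticalStrip 1 1 := by
  refine ⟨?_, ?_⟩
  · simp
  · simp

/-- For `v 0 = 0` the Eisenstein summand is constant. -/
lemma eisSummand_of_zero (k : ℤ) {v : Fin 2 → ℤ} (hv : v 0 = 0) (z : ℍ) :
    eisSummand k v z = ((v 1 : ℤ) : ℂ) ^ (-k) := by
  simp [eisSummand, hv]

/-- For `v 0 ≠ 0` the Eisenstein summand is small for large imaginary part. -/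
lemma norm_eisSummand_le_im {k : ℕ} {v : Fin 2 → ℤ} (hv : v 0 ≠ 0) (z : ℍ) :
    ‖eisSummand k v z‖ ≤ (z.im ^ k)⁻¹ := by
  have him : z.im ≤ ‖((v 0 : ℤ) : ℂ) * (z : ℂ) + ((v 1 : ℤ) : ℂ)‖ := by
    have h1 : |(((v 0 : ℤ) : ℂ) * (z : ℂ) + ((v 1 : ℤ) : ℂ)).im| ≤
        ‖((v 0 : ℤ) : ℂ) * (z : ℂ) + ((v 1 : ℤ) : ℂ)‖ := Complex.abs_im_le_norm _
    have h2 : (((v 0 : ℤ) : ℂ) * (z : ℂ) + ((v 1 : ℤ) : ℂ)).im = (v 0 : ℝ) * z.im := by
      simp
    rw [h2, abs_mul, abs_of_pos z.im_pos] at h1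
    have h3 : (1 : ℝ) ≤ |(v 0 : ℝ)| := by
      have : (1 : ℤ) ≤ |v 0| := Int.one_le_abs hv
      exact_mod_cast this
    calc z.im = 1 * z.im := (one_mul _).symm
      _ ≤ |(v 0 : ℝ)| * z.im := mul_le_mul_of_nonneg_right h3 z.im_pos.le
      _ ≤ _ := h1
  simp only [eisSummand, zpow_neg, zpow_natCast, norm_inv, norm_pow]
  exact inv_anti₀ (pow_pos z.im_pos k) (pow_le_pow_left₀ z.im_pos.le him k)

lemma tendsto_eisSummand_imAxisPt {k : ℕ} (hk : 1 ≤ k) {v : Fin 2 → ℤ} (hv : v 0 ≠ 0) :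
    Tendsto (fun n : ℕ => eisSummand k v (imAxisPt n)) atTop (𝓝 0) := by
  rw [tendsto_zero_iff_norm_tendsto_zero]
  have h0 : Tendsto (fun n : ℕ => (((n : ℝ) + 1) ^ k)⁻¹) atTop (𝓝 0) := by
    have h1 : Tendsto (fun n : ℕ => ((n : ℝ) + 1)) atTop atTop :=
      tendsto_atTop_add_const_right _ _ tendsto_natCast_atTop_atTop
    have h2 : Tendsto (fun n : ℕ => ((n : ℝ) + 1) ^ k) atTop atTop :=
      (tendsto_pow_atTop (by omega)).comp h1
    exact tendsto_inv_atTop_zero.comp h2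
  refine squeeze_zero (fun _ => norm_nonneg _) (fun n => ?_) h0
  simpa using norm_eisSummand_le_im (k := k) hv (imAxisPt n)

/-- The limit of a weighted Eisenstein series along the imaginary axis. -/
theorem wEis_tendsto_imAxisPt {w : (Fin 2 → ℤ) → ℂ} {C : ℝ} (hw : ∀ v, ‖w v‖ ≤ C)
    {k : ℕ} (hk : 3 ≤ k) :
    Tendsto (fun n : ℕ => wEis w k (imAxisPt n)) atTop
      (𝓝 (∑' v : Fin 2 → ℤ, if v 0 = 0 then w v * ((v 1 : ℤ) : ℂ) ^ (-(k : ℤ)) else 0)) := by
  have hk' : (2 : ℝ) < ((k : ℤ) : ℝ) := by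
    have : (2 : ℤ) < (k : ℤ) := by omega
    exact_mod_cast this
  have hC : 0 ≤ C := (norm_nonneg _).trans (hw 0)
  have p_sum : Summable fun x : Fin 2 → ℤ ↦ ‖x‖ ^ (-(k : ℤ)) :=
    mod_cast (summable_one_div_norm_rpow hk')
  refine tendsto_tsum_of_dominated_convergence
    (bound := fun v => C * (r ⟨⟨1, 1⟩, one_pos⟩ ^ (-((k : ℤ) : ℝ)) * ‖v‖ ^ (-(k : ℤ))))
    ((p_sum.mul_left _).mul_left C) (fun v => ?_) (Eventually.of_forall fun n v => ?_)
  · by_cases hv : v 0 = 0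
    · simp only [hv, if_true]
      simp_rw [eisSummand_of_zero (k : ℤ) hv]
      exact tendsto_const_nhds
    · simp only [hv, if_false]
      have := (tendsto_eisSummand_imAxisPt (k := k) (by omega) hv).const_mul (w v)
      simpa using this
  · refine (norm_wEis_term_le hw k v _).trans (mul_le_mul_of_nonneg_left ?_ hC)
    simpa only [eisSummand, one_div, ← zpow_neg, norm_zpow, ← Real.rpow_intCast,
      Int.cast_neg] using summand_bound_of_mem_verticalStrip (by positivity) v one_pos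
        (imAxisPt_mem_verticalStrip n)

/-- If the limit of a weighted Eisenstein series along the imaginary axis is non-zero, then the
series is not identically zero. -/
theorem wEis_ne_zero_of_limit_ne_zero {w : (Fin 2 → ℤ) → ℂ} {C : ℝ} (hw : ∀ v, ‖w v‖ ≤ C)
    {k : ℕ} (hk : 3 ≤ k)
    (hL : (∑' v : Fin 2 → ℤ, if v 0 = 0 then w v * ((v 1 : ℤ) : ℂ) ^ (-(k : ℤ)) else 0) ≠ 0) :
    wEis w k ≠ 0 := by
  intro h0
  have h := wEis_tendsto_imAxisPt hw hk
  rw [h0] at h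
  simp only [Pi.zero_apply] at h
  exact hL (tendsto_nhds_unique h tendsto_const_nhds)

end Fermat.Agent.S29.H942
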