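import Fermat.Agent.S29.H942.TwEis

/-!
# Powers of twisted Eisenstein series are modular forms

If `χ ^ p = 1`, the `p`-th power of the twisted Eisenstein series of weight `k` and character `χ`
is a modular form of weight `k * p` for `Γ` (with trivial character).
-/

set_option autoImplicit false

noncomputable section

open UpperHalfPlane EisensteinSeries Matrix ModularForm Filter Topology Set
open scoped MatrixGroups Manifold

namespace Fermat.Agent.S29.H942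

/-- The slash action of `SL(2,ℤ)` on a power. -/
lemma pow_slash_SL2 (k : ℤ) (A : SL(2, ℤ)) (f : ℍ → ℂ) (p : ℕ) :
    (f ^ p) ∣[k * (p : ℤ)] A = (f ∣[k] A) ^ p := by
  induction p with
  | zero =>
    simp only [Nat.cast_zero, mul_zero, pow_zero]
    exact is_invariant_one A
  | succ n ih =>
    have h1 : k * ((n + 1 : ℕ) : ℤ) = k * (n : ℤ) + k := by push_cast; ring
    rw [h1, pow_succ, mul_slash_SL2, ih, pow_succ]

lemma isBoundedAtImInfty_pow {f : ℍ → ℂ} (hf : IsBoundedAtImInfty f) (p : ℕ) :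
    IsBoundedAtImInfty (f ^ p) := by
  induction p with
  | zero =>
    simp only [pow_zero]
    exact Filter.const_boundedAtFilter _ (1 : ℂ)
  | succ n ih =>
    rw [pow_succ]
    exact ih.mul hf

variable {Γ : Subgroup SL(2, ℤ)} {χ : Γ →* ℂˣ}

/-- The `p`-th power of a twisted Eisenstein series with `χ ^ p = 1` as a modular form. -/
def twEisPow (hχ : ∀ γ : Γ, ‖((χ γ : ℂˣ) : ℂ)‖ = 1)
    (hχ0 : ∀ γ : Γ, (γ : SL(2, ℤ)) 1 0 = 0 → χ γ = 1) {k : ℤ} (hk : 3 ≤ k) (p : ℕ)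
    (hp : ∀ γ : Γ, χ γ ^ p = 1) :
    ModularForm (Γ.map (SpecialLinearGroup.mapGL ℝ)) (k * (p : ℤ)) where
  toFun := (twEis Γ χ k) ^ p
  slash_action_eq' := by
    rintro _ ⟨δ, hδ, rfl⟩
    have h := pow_slash_SL2 k δ (twEis Γ χ k) p
    rw [twEis_slash hχ0 k ⟨δ, hδ⟩, smul_pow] at h
    have h1 : (((χ ⟨δ, hδ⟩ : ℂˣ) : ℂ)) ^ p = 1 := by
      have := congrArg (fun u : ℂˣ => (u : ℂ)) (hp ⟨δ, hδ⟩)
      simpa using this
    rw [h1, one_smul] at h
    exact h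
  holo' := (twEis_mdifferentiable hχ hk).pow p
  bdd_at_cusps' {c} hc := by
    have hc' : IsCusp c (SpecialLinearGroup.mapGL ℝ : SL(2, ℤ) →* GL (Fin 2) ℝ).range := by
      refine hc.mono ?_
      rw [MonoidHom.range_eq_map]
      exact Subgroup.map_mono le_top
    rw [OnePoint.isBoundedAt_iff_forall_SL2Z hc']
    intro g _
    rw [pow_slash_SL2]
    exact isBoundedAtImInfty_pow (twEis_slash_isBoundedAtImInfty hχ hk g) p

@[simp] lemma twEisPow_apply (hχ : ∀ γ : Γ, ‖((χ γ : ℂˣ) : ℂ)‖ = 1)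
    (hχ0 : ∀ γ : Γ, (γ : SL(2, ℤ)) 1 0 = 0 → χ γ = 1) {k : ℤ} (hk : 3 ≤ k) (p : ℕ)
    (hp : ∀ γ : Γ, χ γ ^ p = 1) (z : ℍ) :
    twEisPow hχ hχ0 hk p hp z = (twEis Γ χ k z) ^ p := rfl

/-- **Twisted Eisenstein series, modular form version.** For a character `χ` of `Γ ≤ SL(2,ℤ)` of
exponent `p`, trivial on the upper triangular elements of `Γ`, and an even `k ≥ 4`, there are a
holomorphic function `E` on `ℍ` with `E (γ z) = χ γ (cz+d)^k E z` and a modular form `F` of weight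
`k p` for `Γ` with `F = E ^ p`, `F ≠ 0`. -/
theorem exists_twisted_eisenstein_pow (Γ : Subgroup SL(2, ℤ)) (χ : Γ →* ℂˣ)
    (hχ0 : ∀ γ : Γ, (γ : SL(2, ℤ)) 1 0 = 0 → χ γ = 1) {k : ℕ} (hk : 3 ≤ k) (hk2 : Even k)
    {p : ℕ} (hp0 : p ≠ 0) (hp : ∀ γ : Γ, χ γ ^ p = 1) :
    ∃ (E : ℍ → ℂ) (F : ModularForm (Γ.map (SpecialLinearGroup.mapGL ℝ)) ((k : ℤ) * (p : ℤ))),
      MDiff E ∧ E ≠ 0 ∧ (∀ z, F z = E z ^ p) ∧ (F : ℍ → ℂ) ≠ 0 ∧
      (∀ (δ : Γ) (z : ℍ), E ((δ : SL(2, ℤ)) • z) =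
        ((χ δ : ℂˣ) : ℂ) * denom (δ : SL(2, ℤ)) z ^ (k : ℤ) * E z) ∧
      (∀ g : SL(2, ℤ), IsBoundedAtImInfty (E ∣[(k : ℤ)] g)) := by
  have hχ : ∀ γ : Γ, ‖((χ γ : ℂˣ) : ℂ)‖ = 1 := by
    intro γ
    have h1 : (((χ γ : ℂˣ) : ℂ)) ^ p = 1 := by
      have := congrArg (fun u : ℂˣ => (u : ℂ)) (hp γ)
      simpa using this
    exact Complex.norm_eq_one_of_pow_eq_one h1 hp0
  have hk' : (3 : ℤ) ≤ (k : ℤ) := by exact_mod_cast hk
  have hne := twEis_ne_zero hχ hχ0 hk hk2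
  refine ⟨twEis Γ χ k, twEisPow hχ hχ0 hk' p hp, twEis_mdifferentiable hχ hk', hne,
    fun z => rfl, ?_, twEis_smul_apply hχ0 k, twEis_slash_isBoundedAtImInfty hχ hk'⟩
  intro h0
  apply hne
  funext z
  have := congrFun h0 z
  simp only [twEisPow_apply, Pi.zero_apply] at this
  exact pow_eq_zero_iff hp0 |>.mp this

end Fermat.Agent.S29.H942
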